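import Mathlib
import Fermat.Prelude.Def_CuspForm_HeckeAlgebra
import Fermat.Agent.Lib.HeckeHomReps
import Fermat.Agent.S21.Parabolic
import Fermat.Agent.S21.Injective

/-!
# P5 block [PER], part 1: the cohomological Hecke operators and the period map

`Γ = Γ₀(N)`.  For a prime `ℓ ∤ N` the operator `tcoh N hℓ hℓN A` on `Hom(Γ, A)` is the transfer
operator `Lib/HeckeHom.heckeHom` of the coset family of `T_ℓ` (`Lib/HeckeHomReps`).

* `periodMap_heckeTLin` (**PER1**): `periodMap N (T_ℓ f) = T^coh_ℓ (periodMap N f)`;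
* `evForm N S`, `evCoh N S A`: the two evaluations of the free `ℤ`-algebra on the symbols
  `X_ℓ` (`ℓ` prime, `ℓ ∤ N`, `ℓ ∉ S`), on cusp forms of weight two and on `Hom(Γ, A)`;
* `evCoh_comp`: naturality of `evCoh` in the coefficient group;
* `periodMap_evForm`: `periodMap N (P(T) f) = P(T^coh) (periodMap N f)`;
* `range_evForm`: if `S` contains the primes dividing `N`, the range of `evForm N S` is the
  prelude's Hecke algebra `CuspForm.heckeAlgebra N 2 S`;
* `periodMap_injective`: the period map is injective (from Eichler–Shimura injectivity).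
-/

set_option autoImplicit false

namespace Fermat.Agent.P5.Per

open UpperHalfPlane hiding I
open scoped MatrixGroups ModularForm
open CongruenceSubgroup ModularCurve ModularCurve.Period
open Fermat.Agent.Lib.HeckeHom Fermat.Agent.Lib.HeckeHomGL Fermat.Agent.Lib.HeckePeriod
open P2MW.S_ModularForm_heckeT_slash_eq_self_of_mem_Gamma0.ModularForm.HeckeSlashInvariance

/-- The coset family of `T_ℓ` for `Γ₀(N)`, `ℓ ∤ N` (explicit primality hypothesis). -/
theorem famT (N : ℕ) {ℓ : ℕ} (hℓ : ℓ.Prime) (hℓN : ¬ ℓ ∣ N) :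
    IsCosetFamily (eG N) (heckeRep ℓ) :=
  haveI : Fact ℓ.Prime := ⟨hℓ⟩
  isCosetFamily_heckeRep N ℓ hℓN

/-- The cohomological Hecke operator `T_ℓ` (`ℓ ∤ N`) on `Hom(Γ₀(N), A)`. -/
noncomputable def tcoh (N : ℕ) {ℓ : ℕ} (hℓ : ℓ.Prime) (hℓN : ¬ ℓ ∣ N) (A : Type*)
    [AddCommGroup A] : (Additive (Gamma0 N) →+ A) →+ (Additive (Gamma0 N) →+ A) :=
  haveI : Fact ℓ.Prime := ⟨hℓ⟩
  ((isCosetFamily_heckeRep N ℓ hℓN).heckeLin ℤ).toAddMonoidHom

/-- `tcoh` is the transfer operator of `Lib/HeckeHom` for the family `heckeRep ℓ`. -/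
theorem tcoh_eq_heckeHom (N : ℕ) {ℓ : ℕ} [Fact ℓ.Prime] (hℓ : ℓ.Prime) (hℓN : ¬ ℓ ∣ N)
    {A : Type*} [AddCommGroup A] (φ : Additive (Gamma0 N) →+ A) :
    tcoh N hℓ hℓN A φ = (isCosetFamily_heckeRep N ℓ hℓN).heckeHom φ := rfl

/-- The defining formula: `(T_ℓ φ)(γ) = ∑ x, φ (cof γ x)`. -/
theorem tcoh_apply (N : ℕ) {ℓ : ℕ} [Fact ℓ.Prime] (hℓ : ℓ.Prime) (hℓN : ¬ ℓ ∣ N)
    {A : Type*} [AddCommGroup A] (φ : Additive (Gamma0 N) →+ A) (γ : Gamma0 N) :
    tcoh N hℓ hℓN A φ (Additive.ofMul γ) =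
      ∑ x : OnePoint (ZMod ℓ),
        φ (Additive.ofMul ((isCosetFamily_heckeRep N ℓ hℓN).cof γ x)) := rfl

/-- Naturality of `tcoh` in the coefficient group. -/
theorem tcoh_comp (N : ℕ) {ℓ : ℕ} (hℓ : ℓ.Prime) (hℓN : ¬ ℓ ∣ N) {A B : Type*}
    [AddCommGroup A] [AddCommGroup B] (ψ : A →+ B) (φ : Additive (Gamma0 N) →+ A) :
    tcoh N hℓ hℓN B (ψ.comp φ) = ψ.comp (tcoh N hℓ hℓN A φ) :=
  haveI : Fact ℓ.Prime := ⟨hℓ⟩
  (isCosetFamily_heckeRep N ℓ hℓN).heckeHom_comp ψ φ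

/-- `tcoh` commutes with the involution induced by conjugation with `diag(-1, 1)`. -/
theorem tcoh_charInvolution (N : ℕ) {ℓ : ℕ} (hℓ : ℓ.Prime) (hℓN : ¬ ℓ ∣ N) (R : Type*)
    [Semiring R] {A : Type*} [AddCommGroup A] [Module R A] (φ : Additive (Gamma0 N) →+ A) :
    tcoh N hℓ hℓN A (charInvolution N R A φ) = charInvolution N R A (tcoh N hℓ hℓN A φ) :=
  haveI : Fact ℓ.Prime := ⟨hℓ⟩
  heckeHom_charInvolution (isCosetFamily_heckeRep N ℓ hℓN) (negOnePoint ℓ)
    (negOnePoint_involutive ℓ).bijective (eps_heckeRep N ℓ) R φ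

/-- **PER1.** Hecke equivariance of the period map: `periodMap (T_ℓ f) = T^coh_ℓ (periodMap f)`
for every prime `ℓ ∤ N`. -/
theorem periodMap_heckeTLin (N : ℕ) [NeZero N] {ℓ : ℕ} (hℓ : ℓ.Prime) (hℓN : ¬ ℓ ∣ N)
    (f : CuspForm (Gamma0 N) 2) :
    periodMap N (CuspForm.heckeTLin 2 hℓ hℓN f) = tcoh N hℓ hℓN ℂ (periodMap N f) := by
  haveI : Fact ℓ.Prime := ⟨hℓ⟩
  symm
  refine heckeHom_periodMap (isCosetFamily_heckeRep N ℓ hℓN) (exists_isUT_heckeRep ℓ) f
    (CuspForm.heckeTLin 2 hℓ hℓN f) ?_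
  rw [CuspForm.coe_heckeTLin_apply]
  exact heckeT_eq_sum_onePoint 2 f

/-- The period map is injective (Eichler–Shimura injectivity for the pair map). -/
theorem periodMap_injective (N : ℕ) [NeZero N] : Function.Injective (periodMap N) := by
  intro f g hfg
  have h0 : periodMap N (f - g) = 0 := by
    have := (Fermat.Agent.S21.periodMapLin N).map_sub f g
    rw [Fermat.Agent.S21.periodMapLin_apply, Fermat.Agent.S21.periodMapLin_apply,
      Fermat.Agent.S21.periodMapLin_apply] at this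
    rw [this, hfg, sub_self]
  have h1 : periodHomPair N (f - g, f - g) = 0 := by
    rw [Fermat.Agent.S21.periodHomPair_eq]
    simp only [LinearMap.coprod_apply, LinearMap.comp_apply,
      Fermat.Agent.S21.periodMapLin_apply, h0, map_zero, add_zero]
  have h2 := Fermat.Agent.S21.periodHomPair_injective N (h1.trans (map_zero _).symm)
  exact sub_eq_zero.1 (congrArg Prod.fst h2)

/-! ### The free algebra on the Hecke symbols -/

/-- The index type of the Hecke operators `T_ℓ` away from `S`: primes `ℓ ∤ N`, `ℓ ∉ S`. -/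
abbrev Idx (N : ℕ) (S : Set ℕ) : Type := {ℓ : ℕ // ℓ.Prime ∧ ¬ ℓ ∣ N ∧ ℓ ∉ S}

/-- Evaluation of a non-commutative polynomial in the `X_ℓ` at the Hecke operators on cusp forms
of weight two. -/
noncomputable def evForm (N : ℕ) [NeZero N] (S : Set ℕ) :
    FreeAlgebra ℤ (Idx N S) →ₐ[ℤ] Module.End ℂ (CuspForm (Gamma0 N) 2) :=
  FreeAlgebra.lift ℤ (fun i : Idx N S => CuspForm.heckeTLin 2 i.2.1 i.2.2.1)

/-- Evaluation of a non-commutative polynomial in the `X_ℓ` at the cohomological Hecke operators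
on `Hom(Γ₀(N), A)`. -/
noncomputable def evCoh (N : ℕ) (S : Set ℕ) (A : Type*) [AddCommGroup A] :
    FreeAlgebra ℤ (Idx N S) →ₐ[ℤ] Module.End ℤ (Additive (Gamma0 N) →+ A) :=
  FreeAlgebra.lift ℤ (fun i : Idx N S => (tcoh N i.2.1 i.2.2.1 A).toIntLinearMap)

@[simp] theorem evForm_ι (N : ℕ) [NeZero N] (S : Set ℕ) (i : Idx N S) :
    evForm N S (FreeAlgebra.ι ℤ i) = CuspForm.heckeTLin 2 i.2.1 i.2.2.1 := by
  simp [evForm]

@[simp] theorem evCoh_ι (N : ℕ) (S : Set ℕ) (A : Type*) [AddCommGroup A] (i : Idx N S) :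
    evCoh N S A (FreeAlgebra.ι ℤ i) = (tcoh N i.2.1 i.2.2.1 A).toIntLinearMap := by
  simp [evCoh]

theorem evCoh_ι_apply (N : ℕ) (S : Set ℕ) (A : Type*) [AddCommGroup A] (i : Idx N S)
    (φ : Additive (Gamma0 N) →+ A) :
    evCoh N S A (FreeAlgebra.ι ℤ i) φ = tcoh N i.2.1 i.2.2.1 A φ := by
  rw [evCoh_ι]; rfl

/-- Naturality of `evCoh` in the coefficient group. -/
theorem evCoh_comp (N : ℕ) (S : Set ℕ) {A B : Type*} [AddCommGroup A] [AddCommGroup B]
    (ψ : A →+ B) (x : FreeAlgebra ℤ (Idx N S)) (φ : Additive (Gamma0 N) →+ A) :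
    evCoh N S B x (ψ.comp φ) = ψ.comp (evCoh N S A x φ) := by
  induction x using FreeAlgebra.induction generalizing φ with
  | grade0 r =>
    rw [AlgHom.commutes, AlgHom.commutes]
    refine AddMonoidHom.ext fun γ => ?_
    simp
  | grade1 i => rw [evCoh_ι_apply, evCoh_ι_apply, tcoh_comp]
  | mul a b ha hb =>
    rw [map_mul, map_mul, Module.End.mul_apply, Module.End.mul_apply, hb, ha]
  | add a b ha hb =>
    rw [map_add, map_add, LinearMap.add_apply, LinearMap.add_apply, ha, hb]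
    refine AddMonoidHom.ext fun γ => ?_
    simp

/-- `evCoh` with complex coefficients is `ℂ`-linear. -/
theorem evCoh_smul (N : ℕ) (S : Set ℕ) (x : FreeAlgebra ℤ (Idx N S)) (c : ℂ)
    (φ : Additive (Gamma0 N) →+ ℂ) : evCoh N S ℂ x (c • φ) = c • evCoh N S ℂ x φ :=
  evCoh_comp N S (AddMonoidHom.mulLeft c) x φ

/-- `periodMap (P(T) f) = P(T^coh) (periodMap f)` for every non-commutative polynomial `P` in the
Hecke operators `T_ℓ`, `ℓ ∤ N`, `ℓ ∉ S`. -/
theorem periodMap_evForm (N : ℕ) [NeZero N] (S : Set ℕ) (x : FreeAlgebra ℤ (Idx N S))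
    (f : CuspForm (Gamma0 N) 2) :
    periodMap N (evForm N S x f) = evCoh N S ℂ x (periodMap N f) := by
  induction x using FreeAlgebra.induction generalizing f with
  | grade0 r =>
    rw [AlgHom.commutes, AlgHom.commutes, Module.algebraMap_end_apply,
      Module.algebraMap_end_apply]
    have h1 : (r • f : CuspForm (Gamma0 N) 2) = (r : ℂ) • f := (Int.cast_smul_eq_zsmul ℂ r f).symm
    have h2 := (Fermat.Agent.S21.periodMapLin N).map_smul (r : ℂ) f
    rw [Fermat.Agent.S21.periodMapLin_apply, Fermat.Agent.S21.periodMapLin_apply] at h2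
    rw [h1, h2, Int.cast_smul_eq_zsmul]
  | grade1 i =>
    rw [evForm_ι, evCoh_ι_apply]
    exact periodMap_heckeTLin N i.2.1 i.2.2.1 f
  | mul a b ha hb =>
    rw [map_mul, map_mul, Module.End.mul_apply, Module.End.mul_apply, ha, hb]
  | add a b ha hb =>
    rw [map_add, map_add, LinearMap.add_apply, LinearMap.add_apply, ← ha, ← hb]
    have h := (Fermat.Agent.S21.periodMapLin N).map_add (evForm N S a f) (evForm N S b f)
    exact h

/-- The range of `evForm` is the subalgebra generated by the `T_ℓ`. -/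
theorem range_evForm_eq_adjoin (N : ℕ) [NeZero N] (S : Set ℕ) :
    (evForm N S).range =
      Algebra.adjoin ℤ (Set.range fun i : Idx N S => CuspForm.heckeTLin (N := N) 2 i.2.1 i.2.2.1) := by
  have h := AlgHom.map_adjoin (evForm N S) (Set.range (FreeAlgebra.ι ℤ (X := Idx N S)))
  rw [FreeAlgebra.adjoin_range_ι, Algebra.map_top] at h
  rw [h, ← Set.range_comp]
  congr 2
  funext i
  exact evForm_ι N S i

/-- If `S` contains the primes dividing `N`, the range of `evForm N S` is the prelude's Hecke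
algebra `CuspForm.heckeAlgebra N 2 S`. -/
theorem range_evForm (N : ℕ) [NeZero N] (S : Set ℕ) (hNS : ∀ q : ℕ, q.Prime → q ∣ N → q ∈ S) :
    (evForm N S).range = CuspForm.heckeAlgebra N 2 S := by
  rw [range_evForm_eq_adjoin, CuspForm.heckeAlgebra]
  congr 1
  ext T
  constructor
  · rintro ⟨i, rfl⟩
    exact CuspForm.heckeTLin_mem_heckeGenerators i.2.1 i.2.2.1 i.2.2.2
  · rintro (⟨ℓ, hℓ, hℓN, hℓS, rfl⟩ | ⟨q, hqN, hq, hqS, rfl⟩)
    · exact ⟨⟨ℓ, hℓ, hℓN, hℓS⟩, rfl⟩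
    · exact absurd (hNS q hq hqN) hqS

/-- Every element of the Hecke algebra is `evForm N S x` for some `x`. -/
theorem exists_evForm_eq (N : ℕ) [NeZero N] (S : Set ℕ)
    (hNS : ∀ q : ℕ, q.Prime → q ∣ N → q ∈ S) (t : CuspForm.heckeAlgebra N 2 S) :
    ∃ x : FreeAlgebra ℤ (Idx N S),
      evForm N S x = (t : Module.End ℂ (CuspForm (Gamma0 N) 2)) := by
  have h : (t : Module.End ℂ (CuspForm (Gamma0 N) 2)) ∈ (evForm N S).range := by
    rw [range_evForm N S hNS]; exact t.2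
  exact h

theorem evForm_mem_heckeAlgebra (N : ℕ) [NeZero N] (S : Set ℕ)
    (x : FreeAlgebra ℤ (Idx N S)) : evForm N S x ∈ CuspForm.heckeAlgebra N 2 S := by
  have h1 : evForm N S x ∈ (evForm N S).range := ⟨x, rfl⟩
  rw [range_evForm_eq_adjoin] at h1
  refine Algebra.adjoin_mono ?_ h1
  rintro T ⟨i, rfl⟩
  exact CuspForm.heckeTLin_mem_heckeGenerators i.2.1 i.2.2.1 i.2.2.2

end Fermat.Agent.P5.Per
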