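import Mathlib

/-!
# P5 block [PER], part 2: rational structure of `Hom(Γ, A)` with vanishing conditions

Let `Γ` be a finitely generated group and `P ⊆ Γ` any subset.  The group
`L = {ψ : Γ → ℤ | ψ|_P = 0}` is free of finite rank, and for every torsion-free abelian group `A`
the homomorphisms `φ : Γ → A` vanishing on `P` are exactly the combinations `∑ i, ψ i • a i` of a
`ℤ`-basis `ψ` of `L`, with unique coefficients `a i : A` (`Hom_P(Γ, A) = L ⊗ A`).

Proof: `Hom_P(Γ, A) = Hom(M', A)` for the finitely generated free `ℤ`-module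
`M' = (Γ^ab / ⟨P⟩) / torsion`.
-/

set_option autoImplicit false

namespace Fermat.Agent.P5.Per.Rational

variable {Γ : Type*} [Group Γ]

/-- The abelianization map, additively. -/
noncomputable def abMap (Γ : Type*) [Group Γ] : Additive Γ →+ Additive (Abelianization Γ) :=
  MonoidHom.toAdditive Abelianization.of

theorem abMap_surjective : Function.Surjective (abMap Γ) := by
  intro x
  obtain ⟨g, hg⟩ := QuotientGroup.mk_surjective (Additive.toMul x)
  exact ⟨Additive.ofMul g, congrArg Additive.ofMul hg⟩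

/-- The submodule of `Γ^ab` generated by `P`. -/
noncomputable def relSub (P : Set Γ) : Submodule ℤ (Additive (Abelianization Γ)) :=
  Submodule.span ℤ ((fun γ : Γ => abMap Γ (Additive.ofMul γ)) '' P)

/-- `Γ^ab / ⟨P⟩`. -/
abbrev Quo (P : Set Γ) : Type _ := Additive (Abelianization Γ) ⧸ relSub P

/-- `(Γ^ab / ⟨P⟩) / torsion`. -/
abbrev QuoTF (P : Set Γ) : Type _ := Quo P ⧸ Submodule.torsion ℤ (Quo P)

/-- The projection `Γ → (Γ^ab / ⟨P⟩) / torsion`. -/
noncomputable def proj (P : Set Γ) : Additive Γ →+ QuoTF P :=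
  ((Submodule.torsion ℤ (Quo P)).mkQ.toAddMonoidHom.comp
    (relSub P).mkQ.toAddMonoidHom).comp (abMap Γ)

theorem proj_surjective (P : Set Γ) : Function.Surjective (proj P) := by
  intro x
  obtain ⟨y, rfl⟩ := Submodule.mkQ_surjective _ x
  obtain ⟨z, rfl⟩ := Submodule.mkQ_surjective _ y
  obtain ⟨w, rfl⟩ := abMap_surjective z
  exact ⟨w, rfl⟩

theorem proj_eq_zero_of_mem (P : Set Γ) {γ : Γ} (hγ : γ ∈ P) : proj P (Additive.ofMul γ) = 0 := by
  have h1 : (relSub P).mkQ (abMap Γ (Additive.ofMul γ)) = 0 := by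
    rw [Submodule.mkQ_apply, Submodule.Quotient.mk_eq_zero]
    exact Submodule.subset_span ⟨γ, hγ, rfl⟩
  show (Submodule.torsion ℤ (Quo P)).mkQ ((relSub P).mkQ (abMap Γ (Additive.ofMul γ))) = 0
  rw [h1, map_zero]

instance instFiniteAb [Group.FG Γ] : Module.Finite ℤ (Additive (Abelianization Γ)) := by
  rw [Module.Finite.iff_addGroup_fg]
  have : Group.FG (Abelianization Γ) := QuotientGroup.fg _
  infer_instance

/-- Factorisation of a homomorphism to a torsion-free group which vanishes on `P`. -/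
theorem exists_factor (P : Set Γ) {A : Type*} [AddCommGroup A] [Module.IsTorsionFree ℤ A]
    (φ : Additive Γ →+ A) (hφ : ∀ γ ∈ P, φ (Additive.ofMul γ) = 0) :
    ∃ φ' : QuoTF P →ₗ[ℤ] A, ∀ x : Additive Γ, φ' (proj P x) = φ x := by
  -- through the abelianization
  let φ₁ : Additive (Abelianization Γ) →+ A :=
    MonoidHom.toAdditiveLeft (Abelianization.lift (AddMonoidHom.toMultiplicativeRight φ))
  have hφ₁ : ∀ x : Additive Γ, φ₁ (abMap Γ x) = φ x := by
    intro x
    show Multiplicative.toAdd (Abelianization.lift (AddMonoidHom.toMultiplicativeRight φ)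
      (Abelianization.of (Additive.toMul x))) = φ x
    rw [Abelianization.lift_apply_of]
    rfl
  -- through the quotient by the relations
  have h1 : relSub P ≤ LinearMap.ker φ₁.toIntLinearMap := by
    rw [relSub, Submodule.span_le]
    rintro _ ⟨γ, hγ, rfl⟩
    show φ₁ (abMap Γ (Additive.ofMul γ)) = 0
    rw [hφ₁, hφ γ hγ]
  let φ₂ : Quo P →ₗ[ℤ] A := (relSub P).liftQ φ₁.toIntLinearMap h1
  -- through the torsion-free quotient
  have h2 : Submodule.torsion ℤ (Quo P) ≤ LinearMap.ker φ₂ := by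
    intro x hx
    rw [Submodule.mem_torsion_iff] at hx
    obtain ⟨a, ha⟩ := hx
    rw [LinearMap.mem_ker]
    have h3 : (a : ℤ) • φ₂ x = 0 := by
      rw [← map_smul]
      have : (a : ℤ) • x = 0 := ha
      rw [this, map_zero]
    exact (smul_eq_zero_iff_right (nonZeroDivisors.coe_ne_zero a)).1 h3
  refine ⟨(Submodule.torsion ℤ (Quo P)).liftQ φ₂ h2, fun x => ?_⟩
  show (Submodule.torsion ℤ (Quo P)).liftQ φ₂ h2
    ((Submodule.torsion ℤ (Quo P)).mkQ ((relSub P).mkQ (abMap Γ x))) = φ x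
  rw [Submodule.mkQ_apply, Submodule.liftQ_apply, Submodule.mkQ_apply]
  show (relSub P).liftQ φ₁.toIntLinearMap h1 (Submodule.Quotient.mk (abMap Γ x)) = φ x
  rw [Submodule.liftQ_apply]
  exact hφ₁ x

/-- **Rational structure.** For a finitely generated group `Γ` and `P ⊆ Γ` there are finitely many
homomorphisms `ψ i : Γ → ℤ` vanishing on `P` such that, for every torsion-free abelian group `A`,
every homomorphism `φ : Γ → A` vanishing on `P` is `γ ↦ ∑ i, ψ i γ • a i` for unique `a i : A`;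
moreover there are `g j : Γ` with `ψ i (g j) = δ_{ij}`. -/
theorem exists_dual_basis [Group.FG Γ] (P : Set Γ) :
    ∃ (s : ℕ) (ψ : Fin s → (Additive Γ →+ ℤ)) (g : Fin s → Γ),
      (∀ i, ∀ γ ∈ P, ψ i (Additive.ofMul γ) = 0) ∧
      (∀ i j, ψ i (Additive.ofMul (g j)) = if i = j then 1 else 0) ∧
      ∀ (A : Type*) [AddCommGroup A] [Module.IsTorsionFree ℤ A] (φ : Additive Γ →+ A),
        (∀ γ ∈ P, φ (Additive.ofMul γ) = 0) →
        ∀ x : Additive Γ, φ x = ∑ i, ψ i x • φ (Additive.ofMul (g i)) := by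
  have : Module.Finite ℤ (QuoTF P) := inferInstance
  have : Module.Free ℤ (QuoTF P) := Module.free_of_finite_type_torsion_free'
  let b := Module.finBasis ℤ (QuoTF P)
  have hg : ∀ j, ∃ γ : Γ, proj P (Additive.ofMul γ) = b j := fun j => by
    obtain ⟨x, hx⟩ := proj_surjective P (b j)
    exact ⟨Additive.toMul x, hx⟩
  choose g hg using hg
  let ψ : Fin (Module.finrank ℤ (QuoTF P)) → (Additive Γ →+ ℤ) := fun i =>
    (b.coord i).toAddMonoidHom.comp (proj P)
  have hψ : ∀ i x, ψ i x = b.repr (proj P x) i := fun i x => rfl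
  refine ⟨_, ψ, g, fun i γ hγ => ?_, fun i j => ?_, ?_⟩
  · rw [hψ, proj_eq_zero_of_mem P hγ, map_zero]; rfl
  · rw [hψ, hg, Module.Basis.repr_self, Finsupp.single_apply]
    simp only [eq_comm]
  · intro A _ _ φ hφ x
    obtain ⟨φ', hφ'⟩ := exists_factor P φ hφ
    have h1 : proj P x = ∑ i, ψ i x • b i := (b.sum_repr (proj P x)).symm
    rw [← hφ' x, h1, map_sum]
    refine Finset.sum_congr rfl fun i _ => ?_
    rw [map_smul, ← hg i, hφ']

end Fermat.Agent.P5.Per.Rational
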