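import Mathlib
import Fermat.Agent.P5.Per.Basic
import Fermat.Agent.P5.Per.Rational
import Fermat.Agent.Lib.Gamma0FG
import Fermat.Agent.S21

/-!
# P5 block [PER], part 3: the parabolic lattice as a faithful Hecke module

`Γ = Γ₀(N)`, `L = parabolicHoms ℤ Γ ℤ`.

* `exists_parabolic_dual_basis` (**PER2**): `L` has a finite `ℤ`-basis `ψ` with dual elements
  `g j : Γ`, and every parabolic homomorphism `Γ → A` to a torsion-free group is
  `∑ i, ψ i • φ (g i)`;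
* `parabolicHoms_eq_span`: `parabolicHoms ℂ Γ ℂ` is the `ℂ`-span of `L`;
* `evForm_eq_zero_iff` (**PER3**): a non-commutative polynomial `P` in the `T_ℓ` vanishes on
  cusp forms of weight two iff `P(T^coh)` vanishes on `L`;
* `evForm_eq_zero_of_family`, `evForm_eq_zero_of_orderOf`: the form used in step 5 of the design:
  if `P(T^coh)` kills all characters `e_k ∘ ψ` (`ψ ∈ L`) for a separating family of
  homomorphisms `e_k : ℤ → B k` (e.g. `m ↦ ζ_{p^k}^m`), then `P(T) = 0` on cusp forms;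
* `tcoh_mem_parabolicHoms_int`, `tcoh_mem_parabolicHoms_complex`, `evCoh_mem_parabolicHoms_int`:
  the operators preserve the parabolic homomorphisms;
* `tcoh_comm_int`: the `T^coh_ℓ` commute on `L`.
-/

set_option autoImplicit false

namespace Fermat.Agent.P5.Per

open scoped MatrixGroups
open CongruenceSubgroup ModularCurve ModularCurve.Period

/-- The parabolic elements of `Γ₀(N)` (trace `±2`). -/
def parSet (N : ℕ) : Set (Gamma0 N) :=
  {γ | ((γ : SL(2, ℤ)) : Matrix (Fin 2) (Fin 2) ℤ).trace ^ 2 = 4}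

theorem isParabolicHom_iff_parSet {N : ℕ} {A : Type*} [AddCommGroup A]
    (φ : Additive (Gamma0 N) →+ A) :
    IsParabolicHom (Gamma0 N) φ ↔ ∀ γ ∈ parSet N, φ (Additive.ofMul γ) = 0 := Iff.rfl

/-- The complexification of an integral homomorphism. -/
noncomputable def toC {N : ℕ} (ψ : Additive (Gamma0 N) →+ ℤ) : Additive (Gamma0 N) →+ ℂ :=
  (Int.castAddHom ℂ).comp ψ

@[simp] theorem toC_apply {N : ℕ} (ψ : Additive (Gamma0 N) →+ ℤ) (x : Additive (Gamma0 N)) :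
    toC ψ x = ((ψ x : ℤ) : ℂ) := rfl

theorem toC_injective {N : ℕ} : Function.Injective (toC (N := N)) := by
  intro ψ ψ' h
  refine AddMonoidHom.ext fun x => ?_
  have h1 : ((ψ x : ℤ) : ℂ) = ((ψ' x : ℤ) : ℂ) :=
    congrArg (fun f : Additive (Gamma0 N) →+ ℂ => f x) h
  exact_mod_cast h1

theorem toC_mem_parabolicHoms {N : ℕ} {ψ : Additive (Gamma0 N) →+ ℤ} :
    toC ψ ∈ parabolicHoms ℂ (Gamma0 N) ℂ ↔ ψ ∈ parabolicHoms ℤ (Gamma0 N) ℤ := by
  rw [mem_parabolicHoms_iff, mem_parabolicHoms_iff]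
  constructor
  · intro h γ hγ
    have h1 : ((ψ (Additive.ofMul γ) : ℤ) : ℂ) = 0 := h γ hγ
    exact_mod_cast h1
  · intro h γ hγ
    show ((ψ (Additive.ofMul γ) : ℤ) : ℂ) = 0
    rw [h γ hγ, Int.cast_zero]

/-- **PER2.** The lattice `L = parabolicHoms ℤ Γ₀(N) ℤ` has a finite basis `ψ` with dual elements
`g j ∈ Γ₀(N)`, and every parabolic homomorphism to a torsion-free abelian group `A` is
`x ↦ ∑ i, ψ i x • φ (g i)`. -/
theorem exists_parabolic_dual_basis (N : ℕ) [NeZero N] :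
    ∃ (s : ℕ) (ψ : Fin s → (Additive (Gamma0 N) →+ ℤ)) (g : Fin s → Gamma0 N),
      (∀ i, ψ i ∈ parabolicHoms ℤ (Gamma0 N) ℤ) ∧
      (∀ i j, ψ i (Additive.ofMul (g j)) = if i = j then 1 else 0) ∧
      ∀ (A : Type*) [AddCommGroup A] [Module.IsTorsionFree ℤ A] (φ : Additive (Gamma0 N) →+ A),
        IsParabolicHom (Gamma0 N) φ →
        ∀ x : Additive (Gamma0 N), φ x = ∑ i, ψ i x • φ (Additive.ofMul (g i)) := by
  haveI : Group.FG (Gamma0 N) := Fermat.Agent.Lib.Gamma0FG.gamma0_fg N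
  obtain ⟨s, ψ, g, h1, h2, h3⟩ := Rational.exists_dual_basis (parSet N)
  exact ⟨s, ψ, g, fun i => h1 i, h2, fun A _ _ φ hφ => h3 A φ hφ⟩

/-- Every complex parabolic homomorphism is a `ℂ`-combination of integral ones. -/
theorem exists_eq_sum_smul_toC (N : ℕ) [NeZero N] :
    ∃ (s : ℕ) (ψ : Fin s → (Additive (Gamma0 N) →+ ℤ)),
      (∀ i, ψ i ∈ parabolicHoms ℤ (Gamma0 N) ℤ) ∧
      ∀ φ ∈ parabolicHoms ℂ (Gamma0 N) ℂ, ∃ c : Fin s → ℂ, φ = ∑ i, c i • toC (ψ i) := by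
  obtain ⟨s, ψ, g, h1, -, h3⟩ := exists_parabolic_dual_basis.{0} N
  refine ⟨s, ψ, h1, fun φ hφ => ⟨fun i => φ (Additive.ofMul (g i)), ?_⟩⟩
  refine AddMonoidHom.ext fun x => ?_
  rw [h3 ℂ φ hφ x, AddMonoidHom.finsetSum_apply]
  refine Finset.sum_congr rfl fun i _ => ?_
  rw [AddMonoidHom.smul_apply, toC_apply, smul_eq_mul, zsmul_eq_mul, mul_comm]

/-- `parabolicHoms ℂ Γ₀(N) ℂ` is the `ℂ`-span of the integral parabolic homomorphisms. -/
theorem parabolicHoms_eq_span (N : ℕ) [NeZero N] :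
    parabolicHoms ℂ (Gamma0 N) ℂ =
      Submodule.span ℂ (toC '' {ψ | ψ ∈ parabolicHoms ℤ (Gamma0 N) ℤ}) := by
  apply le_antisymm
  · intro φ hφ
    obtain ⟨s, ψ, h1, h2⟩ := exists_eq_sum_smul_toC N
    obtain ⟨c, rfl⟩ := h2 φ hφ
    exact Submodule.sum_mem _ fun i _ =>
      Submodule.smul_mem _ _ (Submodule.subset_span ⟨ψ i, h1 i, rfl⟩)
  · rw [Submodule.span_le]
    rintro _ ⟨ψ, hψ, rfl⟩
    exact toC_mem_parabolicHoms.2 hψ

/-- The period map of a cusp form is parabolic. -/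
theorem periodMap_mem (N : ℕ) [NeZero N] (f : CuspForm (Gamma0 N) 2) :
    periodMap N f ∈ parabolicHoms ℂ (Gamma0 N) ℂ :=
  Fermat.Agent.S21.Parabolic.periodMap_mem_parabolicHoms N f

/-- `evCoh` commutes with the complexification. -/
theorem evCoh_toC (N : ℕ) (S : Set ℕ) (x : FreeAlgebra ℤ (Idx N S))
    (ψ : Additive (Gamma0 N) →+ ℤ) : evCoh N S ℂ x (toC ψ) = toC (evCoh N S ℤ x ψ) :=
  evCoh_comp N S (Int.castAddHom ℂ) x ψ

/-- **PER3**, one direction: if `P(T^coh)` kills the parabolic lattice, then `P(T) = 0` on cusp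
forms of weight two. -/
theorem evForm_eq_zero_of_evCoh (N : ℕ) [NeZero N] (S : Set ℕ) (x : FreeAlgebra ℤ (Idx N S))
    (h : ∀ ψ ∈ parabolicHoms ℤ (Gamma0 N) ℤ, evCoh N S ℤ x ψ = 0) : evForm N S x = 0 := by
  refine LinearMap.ext fun f => ?_
  rw [LinearMap.zero_apply]
  apply periodMap_injective N
  rw [periodMap_evForm]
  obtain ⟨s, ψ, h1, h2⟩ := exists_eq_sum_smul_toC N
  obtain ⟨c, hc⟩ := h2 _ (periodMap_mem N f)
  have h0 : periodMap N (0 : CuspForm (Gamma0 N) 2) = 0 :=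
    (Fermat.Agent.S21.periodMapLin N).map_zero
  rw [hc, map_sum, h0]
  refine Finset.sum_eq_zero fun i _ => ?_
  rw [evCoh_smul, evCoh_toC, h (ψ i) (h1 i)]
  have : toC (0 : Additive (Gamma0 N) →+ ℤ) = 0 := AddMonoidHom.ext fun x => by simp
  rw [this, smul_zero]

/-- The form of **PER3** used in step 5 of the design: if `P(T^coh)` kills the characters
`e k ∘ ψ` (`ψ` in the parabolic lattice) for a separating family of homomorphisms
`e k : ℤ → B k`, then `P(T) = 0` on cusp forms of weight two. -/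
theorem evForm_eq_zero_of_family (N : ℕ) [NeZero N] (S : Set ℕ) (x : FreeAlgebra ℤ (Idx N S))
    {κ : Type*} {B : κ → Type*} [∀ k, AddCommGroup (B k)] (e : ∀ k, ℤ →+ B k)
    (he : ∀ m : ℤ, (∀ k, e k m = 0) → m = 0)
    (h : ∀ k, ∀ ψ ∈ parabolicHoms ℤ (Gamma0 N) ℤ, evCoh N S (B k) x ((e k).comp ψ) = 0) :
    evForm N S x = 0 := by
  refine evForm_eq_zero_of_evCoh N S x fun ψ hψ => ?_
  refine AddMonoidHom.ext fun γ => ?_
  refine he _ fun k => ?_
  have h1 := h k ψ hψ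
  rw [evCoh_comp] at h1
  exact congrArg (fun f : Additive (Gamma0 N) →+ B k => f γ) h1

/-- The homomorphism `m ↦ ζ ^ m`, additively. -/
noncomputable def zpowAdd {G : Type*} [CommGroup G] (ζ : G) : ℤ →+ Additive G :=
  MonoidHom.toAdditiveRight (zpowersHom G ζ)

@[simp] theorem zpowAdd_apply {G : Type*} [CommGroup G] (ζ : G) (m : ℤ) :
    zpowAdd ζ m = Additive.ofMul (ζ ^ m) := rfl

/-- Step 5 of the design with roots of unity: if `P(T^coh)` kills the characters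
`γ ↦ ζ_k ^ ψ(γ)` for all `ψ` in the parabolic lattice and all `k`, where `ζ_k` has order `p ^ k`
(`p > 1`), then `P(T) = 0` on cusp forms of weight two. -/
theorem evForm_eq_zero_of_orderOf (N : ℕ) [NeZero N] (S : Set ℕ) (x : FreeAlgebra ℤ (Idx N S))
    {G : Type*} [CommGroup G] {p : ℕ} (hp : 1 < p) (ζ : ℕ → G) (hζ : ∀ k, orderOf (ζ k) = p ^ k)
    (h : ∀ k, ∀ ψ ∈ parabolicHoms ℤ (Gamma0 N) ℤ,
      evCoh N S (Additive G) x ((zpowAdd (ζ k)).comp ψ) = 0) :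
    evForm N S x = 0 := by
  refine evForm_eq_zero_of_family N S x (fun k => zpowAdd (ζ k)) (fun m hm => ?_) h
  by_contra hm0
  have hdvd : ∀ k : ℕ, ((p ^ k : ℕ) : ℤ) ∣ m := by
    intro k
    have h1 : ζ k ^ m = 1 := by
      have := hm k
      rw [zpowAdd_apply] at this
      exact this
    rw [← hζ k]
    exact orderOf_dvd_iff_zpow_eq_one.2 h1
  have h2 : ∀ k : ℕ, p ^ k ≤ m.natAbs := fun k =>
    Nat.le_of_dvd (Int.natAbs_pos.2 hm0) (Int.natCast_dvd.1 (hdvd k))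
  have h3 := h2 m.natAbs
  have h4 : m.natAbs < p ^ m.natAbs := Nat.lt_pow_self hp
  omega

/-! ### Stability and commutativity -/

/-- `T^coh_ℓ` preserves the complex parabolic homomorphisms. -/
theorem tcoh_mem_parabolicHoms_complex (N : ℕ) [NeZero N] {ℓ : ℕ} (hℓ : ℓ.Prime) (hℓN : ¬ ℓ ∣ N)
    {φ : Additive (Gamma0 N) →+ ℂ} (hφ : φ ∈ parabolicHoms ℂ (Gamma0 N) ℂ) :
    tcoh N hℓ hℓN ℂ φ ∈ parabolicHoms ℂ (Gamma0 N) ℂ := by
  rw [← (Fermat.Agent.S21.result N).2] at hφ ⊢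
  obtain ⟨⟨f, g⟩, rfl⟩ := hφ
  refine ⟨(CuspForm.heckeTLin 2 hℓ hℓN f, CuspForm.heckeTLin 2 hℓ hℓN g), ?_⟩
  rw [Fermat.Agent.S21.periodHomPair_eq]
  simp only [LinearMap.coprod_apply, LinearMap.comp_apply, LinearMap.add_apply,
    LinearMap.sub_apply, LinearMap.id_apply, Fermat.Agent.S21.periodMapLin_apply]
  rw [periodMap_heckeTLin, periodMap_heckeTLin, map_add, map_add, map_sub,
    tcoh_charInvolution, tcoh_charInvolution]

/-- `T^coh_ℓ` preserves the parabolic lattice. -/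
theorem tcoh_mem_parabolicHoms_int (N : ℕ) [NeZero N] {ℓ : ℕ} (hℓ : ℓ.Prime) (hℓN : ¬ ℓ ∣ N)
    {ψ : Additive (Gamma0 N) →+ ℤ} (hψ : ψ ∈ parabolicHoms ℤ (Gamma0 N) ℤ) :
    tcoh N hℓ hℓN ℤ ψ ∈ parabolicHoms ℤ (Gamma0 N) ℤ := by
  rw [← toC_mem_parabolicHoms]
  have h1 : toC (tcoh N hℓ hℓN ℤ ψ) = tcoh N hℓ hℓN ℂ (toC ψ) :=
    (tcoh_comp N hℓ hℓN (Int.castAddHom ℂ) ψ).symm
  rw [h1]
  exact tcoh_mem_parabolicHoms_complex N hℓ hℓN (toC_mem_parabolicHoms.2 hψ)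

/-- Every `P(T^coh)` preserves the parabolic lattice. -/
theorem evCoh_mem_parabolicHoms_int (N : ℕ) [NeZero N] (S : Set ℕ) (x : FreeAlgebra ℤ (Idx N S))
    {ψ : Additive (Gamma0 N) →+ ℤ} (hψ : ψ ∈ parabolicHoms ℤ (Gamma0 N) ℤ) :
    evCoh N S ℤ x ψ ∈ parabolicHoms ℤ (Gamma0 N) ℤ := by
  induction x using FreeAlgebra.induction generalizing ψ with
  | grade0 r =>
    rw [AlgHom.commutes, Module.algebraMap_end_apply]
    exact Submodule.smul_mem _ _ hψ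
  | grade1 i =>
    rw [evCoh_ι_apply]
    exact tcoh_mem_parabolicHoms_int N i.2.1 i.2.2.1 hψ
  | mul a b ha hb =>
    rw [map_mul, Module.End.mul_apply]
    exact ha (hb hψ)
  | add a b ha hb =>
    rw [map_add, LinearMap.add_apply]
    exact Submodule.add_mem _ (ha hψ) (hb hψ)

/-- **PER3**, the converse: if `P(T) = 0` on cusp forms of weight two, then `P(T^coh)` kills the
complex parabolic homomorphisms. -/
theorem evCoh_eq_zero_of_evForm_complex (N : ℕ) [NeZero N] (S : Set ℕ)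
    (x : FreeAlgebra ℤ (Idx N S)) (h : evForm N S x = 0)
    {φ : Additive (Gamma0 N) →+ ℂ} (hφ : φ ∈ parabolicHoms ℂ (Gamma0 N) ℂ) :
    evCoh N S ℂ x φ = 0 := by
  have hι : ∀ (y : FreeAlgebra ℤ (Idx N S)) (θ : Additive (Gamma0 N) →+ ℂ),
      evCoh N S ℂ y (charInvolution N ℂ ℂ θ) = charInvolution N ℂ ℂ (evCoh N S ℂ y θ) := by
    intro y
    induction y using FreeAlgebra.induction with
    | grade0 r =>
      intro θ
      rw [AlgHom.commutes, Module.algebraMap_end_apply, Module.algebraMap_end_apply]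
      refine AddMonoidHom.ext fun γ => ?_
      simp
    | grade1 i =>
      intro θ
      rw [evCoh_ι_apply, evCoh_ι_apply, tcoh_charInvolution]
    | mul a b ha hb =>
      intro θ
      rw [map_mul, Module.End.mul_apply, Module.End.mul_apply, hb, ha]
    | add a b ha hb =>
      intro θ
      rw [map_add, LinearMap.add_apply, LinearMap.add_apply, ha, hb, map_add]
  rw [← (Fermat.Agent.S21.result N).2] at hφ
  obtain ⟨⟨f, g⟩, rfl⟩ := hφ
  rw [Fermat.Agent.S21.periodHomPair_eq]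
  simp only [LinearMap.coprod_apply, LinearMap.comp_apply, LinearMap.add_apply,
    LinearMap.sub_apply, LinearMap.id_apply, Fermat.Agent.S21.periodMapLin_apply]
  have hf : evCoh N S ℂ x (periodMap N f) = 0 := by
    rw [← periodMap_evForm, h, LinearMap.zero_apply]
    exact (Fermat.Agent.S21.periodMapLin N).map_zero
  have hg : evCoh N S ℂ x (periodMap N g) = 0 := by
    rw [← periodMap_evForm, h, LinearMap.zero_apply]
    exact (Fermat.Agent.S21.periodMapLin N).map_zero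
  rw [map_add, map_add, map_sub, hι, hι, hf, hg]
  simp

/-- **PER3**: `P(T) = 0` on cusp forms of weight two iff `P(T^coh)` kills the parabolic lattice
`L = parabolicHoms ℤ Γ₀(N) ℤ`. -/
theorem evForm_eq_zero_iff (N : ℕ) [NeZero N] (S : Set ℕ) (x : FreeAlgebra ℤ (Idx N S)) :
    evForm N S x = 0 ↔ ∀ ψ ∈ parabolicHoms ℤ (Gamma0 N) ℤ, evCoh N S ℤ x ψ = 0 := by
  refine ⟨fun h ψ hψ => ?_, evForm_eq_zero_of_evCoh N S x⟩
  apply toC_injective
  rw [← evCoh_toC, evCoh_eq_zero_of_evForm_complex N S x h (toC_mem_parabolicHoms.2 hψ)]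
  exact AddMonoidHom.ext fun x => by simp

/-- The operators `T^coh_ℓ` commute on the parabolic lattice. -/
theorem tcoh_comm_int (N : ℕ) [NeZero N] {ℓ ℓ' : ℕ} (hℓ : ℓ.Prime) (hℓN : ¬ ℓ ∣ N)
    (hℓ' : ℓ'.Prime) (hℓ'N : ¬ ℓ' ∣ N) {ψ : Additive (Gamma0 N) →+ ℤ}
    (hψ : ψ ∈ parabolicHoms ℤ (Gamma0 N) ℤ) :
    tcoh N hℓ hℓN ℤ (tcoh N hℓ' hℓ'N ℤ ψ) = tcoh N hℓ' hℓ'N ℤ (tcoh N hℓ hℓN ℤ ψ) := by
  -- apply `evForm_eq_zero_iff` to the commutator, with `S = ∅`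
  let i : Idx N ∅ := ⟨ℓ, hℓ, hℓN, fun h => h⟩
  let i' : Idx N ∅ := ⟨ℓ', hℓ', hℓ'N, fun h => h⟩
  let x : FreeAlgebra ℤ (Idx N ∅) :=
    FreeAlgebra.ι ℤ i * FreeAlgebra.ι ℤ i' - FreeAlgebra.ι ℤ i' * FreeAlgebra.ι ℤ i
  have hx : evForm N ∅ x = 0 := by
    show evForm N ∅ (FreeAlgebra.ι ℤ i * FreeAlgebra.ι ℤ i' -
      FreeAlgebra.ι ℤ i' * FreeAlgebra.ι ℤ i) = 0
    rw [map_sub, map_mul, map_mul, evForm_ι, evForm_ι, sub_eq_zero]
    exact (CuspForm.heckeTLin_comm 2 hℓ hℓN hℓ' hℓ'N).eq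
  have h1 := (evForm_eq_zero_iff N ∅ x).1 hx ψ hψ
  have h2 : evCoh N ∅ ℤ x ψ =
      tcoh N hℓ hℓN ℤ (tcoh N hℓ' hℓ'N ℤ ψ) - tcoh N hℓ' hℓ'N ℤ (tcoh N hℓ hℓN ℤ ψ) := by
    show evCoh N ∅ ℤ (FreeAlgebra.ι ℤ i * FreeAlgebra.ι ℤ i' -
      FreeAlgebra.ι ℤ i' * FreeAlgebra.ι ℤ i) ψ = _
    rw [map_sub, map_mul, map_mul, LinearMap.sub_apply, Module.End.mul_apply,
      Module.End.mul_apply, evCoh_ι_apply, evCoh_ι_apply, evCoh_ι_apply, evCoh_ι_apply]
  rw [h2] at h1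
  exact sub_eq_zero.1 h1

end Fermat.Agent.P5.Per
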