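import Mathlib
import Fermat.Agent.P5.Per.Main

/-!
# P5 block [PER], part 4: the parabolic lattice as a faithful module over the Hecke algebra

`Lat N = parabolicHoms ℤ Γ₀(N) ℤ`.

* `exists_lat_basis`: `Lat N` has a finite `ℤ`-basis `b` with dual elements `g j ∈ Γ₀(N)`;
  `lat_finite`, `lat_free`;
* `evCohL N S`: the action of the free algebra on the Hecke symbols on `Lat N`;
* `heckeAct N S hNS : CuspForm.heckeAlgebra N 2 S →+* Module.End ℤ (Lat N)`: the (faithful)
  action of the prelude's Hecke algebra, `T_ℓ` acting as `T^coh_ℓ` (`heckeAct_T`,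
  `heckeAct_injective`);
* `castHom`, `linearIndependent_castHom`: the basis of `Lat N` stays linearly independent in
  `Hom(Γ₀(N), E)` for every nontrivial commutative ring `E`.
-/

set_option autoImplicit false

namespace Fermat.Agent.P5.Per

open scoped MatrixGroups
open CongruenceSubgroup ModularCurve ModularCurve.Period

/-- The parabolic lattice `L = parabolicHoms ℤ Γ₀(N) ℤ`. -/
abbrev Lat (N : ℕ) : Submodule ℤ (Additive (Gamma0 N) →+ ℤ) := parabolicHoms ℤ (Gamma0 N) ℤ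

/-- `Lat N` has a finite basis with dual elements of `Γ₀(N)`. -/
theorem exists_lat_basis (N : ℕ) [NeZero N] :
    ∃ (s : ℕ) (b : Module.Basis (Fin s) ℤ (Lat N)) (g : Fin s → Gamma0 N),
      ∀ i j, (b i : Additive (Gamma0 N) →+ ℤ) (Additive.ofMul (g j)) = if i = j then 1 else 0 := by
  obtain ⟨s, ψ, g, h1, h2, h3⟩ := exists_parabolic_dual_basis.{0} N
  let v : Fin s → Lat N := fun i => ⟨ψ i, h1 i⟩
  have hv : ∀ (c : Fin s → ℤ) (j : Fin s),
      ((∑ i, c i • v i : Lat N) : Additive (Gamma0 N) →+ ℤ) (Additive.ofMul (g j)) = c j := by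
    intro c j
    rw [Submodule.coe_sum, AddMonoidHom.finsetSum_apply]
    simp only [Submodule.coe_smul, AddMonoidHom.smul_apply, v, h2, smul_eq_mul, mul_ite, mul_one,
      mul_zero, Finset.sum_ite_eq', Finset.mem_univ, if_true]
  have hli : LinearIndependent ℤ v := by
    rw [Fintype.linearIndependent_iff]
    intro c hc j
    rw [← hv c j, hc]
    rfl
  have hsp : ⊤ ≤ Submodule.span ℤ (Set.range v) := by
    rintro ⟨φ, hφ⟩ -
    have h4 : (⟨φ, hφ⟩ : Lat N) = ∑ i, φ (Additive.ofMul (g i)) • v i := by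
      apply Subtype.ext
      refine AddMonoidHom.ext fun x => ?_
      rw [Submodule.coe_sum, AddMonoidHom.finsetSum_apply, h3 ℤ φ hφ x]
      refine Finset.sum_congr rfl fun i _ => ?_
      simp only [Submodule.coe_smul, AddMonoidHom.smul_apply, v, smul_eq_mul, mul_comm]
    rw [h4]
    exact Submodule.sum_mem _ fun i _ => Submodule.smul_mem _ _ (Submodule.subset_span ⟨i, rfl⟩)
  refine ⟨s, Module.Basis.mk hli hsp, g, fun i j => ?_⟩
  rw [Module.Basis.mk_apply]
  exact h2 i j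

theorem lat_finite (N : ℕ) [NeZero N] : Module.Finite ℤ (Lat N) := by
  obtain ⟨s, b, -, -⟩ := exists_lat_basis N
  exact Module.Finite.of_basis b

theorem lat_free (N : ℕ) [NeZero N] : Module.Free ℤ (Lat N) := by
  obtain ⟨s, b, -, -⟩ := exists_lat_basis N
  exact Module.Free.of_basis b

/-- Coefficient change `Hom(Γ₀(N), ℤ) → Hom(Γ₀(N), E)`. -/
noncomputable def castHom (N : ℕ) (E : Type*) [Ring E] (ψ : Additive (Gamma0 N) →+ ℤ) :
    Additive (Gamma0 N) →+ E :=
  (Int.castAddHom E).comp ψ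

@[simp] theorem castHom_apply (N : ℕ) (E : Type*) [Ring E] (ψ : Additive (Gamma0 N) →+ ℤ)
    (x : Additive (Gamma0 N)) : castHom N E ψ x = ((ψ x : ℤ) : E) := rfl

theorem castHom_isParabolicHom (N : ℕ) (E : Type*) [Ring E] {ψ : Additive (Gamma0 N) →+ ℤ}
    (hψ : ψ ∈ Lat N) : IsParabolicHom (Gamma0 N) (castHom N E ψ) := by
  intro γ hγ
  show ((ψ (Additive.ofMul γ) : ℤ) : E) = 0
  rw [hψ γ hγ, Int.cast_zero]

/-- A family of integral homomorphisms with dual elements stays linearly independent after any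
coefficient change. -/
theorem linearIndependent_castHom (N : ℕ) (E : Type*) [CommRing E] {s : ℕ}
    (ψ : Fin s → (Additive (Gamma0 N) →+ ℤ)) (g : Fin s → Gamma0 N)
    (h : ∀ i j, ψ i (Additive.ofMul (g j)) = if i = j then 1 else 0) :
    LinearIndependent E (fun i => castHom N E (ψ i)) := by
  rw [Fintype.linearIndependent_iff]
  intro c hc j
  have h1 := congrArg (fun f : Additive (Gamma0 N) →+ E => f (Additive.ofMul (g j))) hc
  simp only [AddMonoidHom.finsetSum_apply, AddMonoidHom.smul_apply, castHom_apply, h,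
    AddMonoidHom.zero_apply] at h1
  simpa using h1

/-! ### The Hecke action on the lattice -/

/-- `T^coh_ℓ` restricted to the parabolic lattice. -/
noncomputable def tcohL (N : ℕ) [NeZero N] {ℓ : ℕ} (hℓ : ℓ.Prime) (hℓN : ¬ ℓ ∣ N) :
    Module.End ℤ (Lat N) :=
  LinearMap.restrict (tcoh N hℓ hℓN ℤ).toIntLinearMap
    (fun _ hψ => tcoh_mem_parabolicHoms_int N hℓ hℓN hψ)

@[simp] theorem coe_tcohL (N : ℕ) [NeZero N] {ℓ : ℕ} (hℓ : ℓ.Prime) (hℓN : ¬ ℓ ∣ N)
    (ψ : Lat N) :
    ((tcohL N hℓ hℓN ψ : Lat N) : Additive (Gamma0 N) →+ ℤ) = tcoh N hℓ hℓN ℤ ψ := rfl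

/-- The action of the free algebra on the Hecke symbols on the parabolic lattice. -/
noncomputable def evCohL (N : ℕ) [NeZero N] (S : Set ℕ) :
    FreeAlgebra ℤ (Idx N S) →ₐ[ℤ] Module.End ℤ (Lat N) :=
  FreeAlgebra.lift ℤ (fun i : Idx N S => tcohL N i.2.1 i.2.2.1)

@[simp] theorem evCohL_ι (N : ℕ) [NeZero N] (S : Set ℕ) (i : Idx N S) :
    evCohL N S (FreeAlgebra.ι ℤ i) = tcohL N i.2.1 i.2.2.1 := by
  simp [evCohL]

/-- `evCohL` is the restriction of `evCoh`. -/
theorem coe_evCohL (N : ℕ) [NeZero N] (S : Set ℕ) (x : FreeAlgebra ℤ (Idx N S)) (ψ : Lat N) :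
    ((evCohL N S x ψ : Lat N) : Additive (Gamma0 N) →+ ℤ) = evCoh N S ℤ x ψ := by
  induction x using FreeAlgebra.induction generalizing ψ with
  | grade0 r =>
    rw [AlgHom.commutes, AlgHom.commutes, Module.algebraMap_end_apply,
      Module.algebraMap_end_apply]
    rfl
  | grade1 i => rw [evCohL_ι, evCoh_ι_apply]; rfl
  | mul a b ha hb =>
    rw [map_mul, map_mul, Module.End.mul_apply, Module.End.mul_apply, ha, hb]
  | add a b ha hb =>
    rw [map_add, map_add, LinearMap.add_apply, LinearMap.add_apply, Submodule.coe_add, ha, hb]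

/-- `P(T^coh) = 0` on the parabolic lattice iff `P(T) = 0` on cusp forms of weight two. -/
theorem evCohL_eq_zero_iff (N : ℕ) [NeZero N] (S : Set ℕ) (x : FreeAlgebra ℤ (Idx N S)) :
    evCohL N S x = 0 ↔ evForm N S x = 0 := by
  rw [evForm_eq_zero_iff]
  constructor
  · intro h ψ hψ
    have h1 := coe_evCohL N S x ⟨ψ, hψ⟩
    rw [h, LinearMap.zero_apply] at h1
    exact h1.symm
  · intro h
    refine LinearMap.ext fun ψ => Subtype.ext ?_
    rw [coe_evCohL, h ψ.1 ψ.2]
    rfl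

theorem evCohL_eq_of_evForm_eq (N : ℕ) [NeZero N] (S : Set ℕ) {x y : FreeAlgebra ℤ (Idx N S)}
    (h : evForm N S x = evForm N S y) : evCohL N S x = evCohL N S y := by
  rw [← sub_eq_zero, ← map_sub, evCohL_eq_zero_iff, map_sub, h, sub_self]

/-- A representative in the free algebra of an element of the Hecke algebra. -/
noncomputable def heckeRepr (N : ℕ) [NeZero N] (S : Set ℕ)
    (hNS : ∀ q : ℕ, q.Prime → q ∣ N → q ∈ S) (t : CuspForm.heckeAlgebra N 2 S) :
    FreeAlgebra ℤ (Idx N S) :=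
  (exists_evForm_eq N S hNS t).choose

theorem evForm_heckeRepr (N : ℕ) [NeZero N] (S : Set ℕ)
    (hNS : ∀ q : ℕ, q.Prime → q ∣ N → q ∈ S) (t : CuspForm.heckeAlgebra N 2 S) :
    evForm N S (heckeRepr N S hNS t) = (t : Module.End ℂ (CuspForm (Gamma0 N) 2)) :=
  (exists_evForm_eq N S hNS t).choose_spec

/-- **The Hecke action on the parabolic lattice.**  If `S` contains the primes dividing `N`, the
prelude's Hecke algebra `CuspForm.heckeAlgebra N 2 S` acts on `Lat N`, the generator `T_ℓ` acting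
as `T^coh_ℓ`. -/
noncomputable def heckeAct (N : ℕ) [NeZero N] (S : Set ℕ)
    (hNS : ∀ q : ℕ, q.Prime → q ∣ N → q ∈ S) :
    CuspForm.heckeAlgebra N 2 S →+* Module.End ℤ (Lat N) where
  toFun t := evCohL N S (heckeRepr N S hNS t)
  map_one' := by
    rw [← map_one (evCohL N S)]
    refine evCohL_eq_of_evForm_eq N S ?_
    rw [evForm_heckeRepr, map_one]
    rfl
  map_mul' t t' := by
    rw [← map_mul (evCohL N S)]
    refine evCohL_eq_of_evForm_eq N S ?_
    rw [evForm_heckeRepr, map_mul, evForm_heckeRepr, evForm_heckeRepr]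
    rfl
  map_zero' := by
    rw [← map_zero (evCohL N S)]
    refine evCohL_eq_of_evForm_eq N S ?_
    rw [evForm_heckeRepr, map_zero]
    rfl
  map_add' t t' := by
    rw [← map_add (evCohL N S)]
    refine evCohL_eq_of_evForm_eq N S ?_
    rw [evForm_heckeRepr, map_add, evForm_heckeRepr, evForm_heckeRepr]
    rfl

/-- `heckeAct` through any representative. -/
theorem heckeAct_eq_evCohL (N : ℕ) [NeZero N] (S : Set ℕ)
    (hNS : ∀ q : ℕ, q.Prime → q ∣ N → q ∈ S) (t : CuspForm.heckeAlgebra N 2 S)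
    (x : FreeAlgebra ℤ (Idx N S))
    (hx : evForm N S x = (t : Module.End ℂ (CuspForm (Gamma0 N) 2))) :
    heckeAct N S hNS t = evCohL N S x :=
  evCohL_eq_of_evForm_eq N S ((evForm_heckeRepr N S hNS t).trans hx.symm)

/-- The generator `T_ℓ` acts on the lattice as `T^coh_ℓ`. -/
theorem heckeAct_T (N : ℕ) [NeZero N] (S : Set ℕ) (hNS : ∀ q : ℕ, q.Prime → q ∣ N → q ∈ S)
    {ℓ : ℕ} (hℓ : ℓ.Prime) (hℓN : ¬ ℓ ∣ N) (hℓS : ℓ ∉ S) (ψ : Lat N) :
    ((heckeAct N S hNS (CuspForm.heckeAlgebra.T hℓ hℓN hℓS) ψ : Lat N) :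
      Additive (Gamma0 N) →+ ℤ) = tcoh N hℓ hℓN ℤ ψ := by
  rw [heckeAct_eq_evCohL N S hNS _ (FreeAlgebra.ι ℤ (⟨ℓ, hℓ, hℓN, hℓS⟩ : Idx N S))
    (by rw [evForm_ι]; rfl), evCohL_ι]
  rfl

/-- The Hecke algebra acts faithfully on the parabolic lattice. -/
theorem heckeAct_injective (N : ℕ) [NeZero N] (S : Set ℕ)
    (hNS : ∀ q : ℕ, q.Prime → q ∣ N → q ∈ S) : Function.Injective (heckeAct N S hNS) := by
  rw [injective_iff_map_eq_zero]
  intro t ht
  have h1 : evCohL N S (heckeRepr N S hNS t) = 0 := ht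
  rw [evCohL_eq_zero_iff, evForm_heckeRepr] at h1
  exact Subtype.ext h1

end Fermat.Agent.P5.Per
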